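import Mathlib
import Fermat.Agent.S48.Cheb.Defs

/-!
# S48 / Cheb / Twist : the function `θ(b) = χ(N b mod m)` on `𝓞 K`
-/

set_option autoImplicit false

open NumberField
open scoped nonZeroDivisors

namespace Fermat.Agent.S48.Cheb

variable (K : Type*) [Field K] [NumberField K] {m : ℕ} (χ : DirichletCharacter ℂ m)

/-- the norm is periodic modulo `m 𝓞 K` (norm = determinant of the multiplication matrix in an integral basis; reduce the matrix mod `m`). -/
theorem norm_add_mul_cast (b c : 𝓞 K) :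
    ((Algebra.norm ℤ (b + (m : 𝓞 K) * c) : ℤ) : ZMod m) = ((Algebra.norm ℤ b : ℤ) : ZMod m) := by
  classical
  have h : ∀ x : ℤ, (x : ZMod m) = Int.castRingHom (ZMod m) x := fun _ => rfl
  rw [Algebra.norm_eq_matrix_det (RingOfIntegers.basis K),
    Algebra.norm_eq_matrix_det (RingOfIntegers.basis K), h, h, RingHom.map_det, RingHom.map_det,
    map_add, map_mul, map_natCast, map_add, map_mul, map_natCast]
  have h0 : ((m : ℕ) : Matrix (Module.Free.ChooseBasisIndex ℤ (𝓞 K))
      (Module.Free.ChooseBasisIndex ℤ (𝓞 K)) (ZMod m)) = 0 := by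
    rw [← Matrix.diagonal_natCast, ZMod.natCast_self]
    exact Matrix.diagonal_zero
  rw [h0, zero_mul, add_zero]

theorem theta_add_mul (b c : 𝓞 K) : theta K χ (b + (m : 𝓞 K) * c) = theta K χ b := by
  unfold theta
  rw [norm_add_mul_cast]

theorem norm_theta_le_one (b : 𝓞 K) : ‖theta K χ b‖ ≤ 1 := by
  exact DirichletCharacter.norm_le_one χ _

theorem norm_chiN_le_one (I : Ideal (𝓞 K)) : ‖chiN K χ I‖ ≤ 1 := by
  exact DirichletCharacter.norm_le_one χ _

theorem chiN_mul (I J : Ideal (𝓞 K)) : chiN K χ (I * J) = chiN K χ I * chiN K χ J := by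
  unfold chiN
  rw [map_mul, Nat.cast_mul, map_mul]

theorem chiN_one : chiN K χ 1 = 1 := by
  unfold chiN
  rw [Ideal.one_eq_top, Ideal.absNorm_top, Nat.cast_one, map_one]

theorem norm_chiN_eq_one (I : Ideal (𝓞 K)) (h : (Ideal.absNorm I).Coprime m) :
    ‖chiN K χ I‖ = 1 := by
  unfold chiN
  obtain ⟨u, hu⟩ := (ZMod.isUnit_iff_coprime _ _).2 h
  rw [← hu]
  exact DirichletCharacter.unit_norm_eq_one χ u

/-- for an EVEN character the sign of the norm does not matter. -/
theorem theta_eq_chiN (hχ : χ.Even) (b : 𝓞 K) : theta K χ b = chiN K χ (Ideal.span {b}) := by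
  have h1 : χ (-1) = 1 := hχ
  unfold theta chiN
  rw [Ideal.absNorm_span_singleton]
  rcases Int.natAbs_eq (Algebra.norm ℤ b) with h | h
  · conv_lhs => rw [h]
    rw [Int.cast_natCast]
  · conv_lhs => rw [h]
    rw [Int.cast_neg, Int.cast_natCast, ← neg_one_mul, map_mul, h1, one_mul]

theorem norm_LTerm_le (s : ℝ) (I : (Ideal (𝓞 K))⁰) :
    ‖LTerm K χ s I‖ ≤ (Ideal.absNorm (I : Ideal (𝓞 K)) : ℝ) ^ (-s) := by
  unfold LTerm
  rw [norm_mul, Complex.norm_real, Real.norm_of_nonneg (Real.rpow_nonneg (Nat.cast_nonneg _) _)]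
  exact mul_le_of_le_one_left (Real.rpow_nonneg (Nat.cast_nonneg _) _) (norm_chiN_le_one K χ _)

theorem LTerm_mul (s : ℝ) (I J : (Ideal (𝓞 K))⁰) :
    LTerm K χ s (I * J) = LTerm K χ s I * LTerm K χ s J := by
  unfold LTerm
  rw [Submonoid.coe_mul, chiN_mul, map_mul, Nat.cast_mul,
    Real.mul_rpow (Nat.cast_nonneg _) (Nat.cast_nonneg _), Complex.ofReal_mul]
  ring

theorem LTerm_one (s : ℝ) : LTerm K χ s 1 = 1 := by
  unfold LTerm
  rw [Submonoid.coe_one, chiN_one, Ideal.one_eq_top, Ideal.absNorm_top, Nat.cast_one,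
    Real.one_rpow, Complex.ofReal_one, mul_one]

theorem summable_LTerm {s : ℝ} (hs : 1 < s) : Summable (LTerm K χ s) := by
  exact Summable.of_norm_bounded (Fermat.Agent.S14.CZ.summable_idealZeta K hs)
    (norm_LTerm_le K χ s)

end Fermat.Agent.S48.Cheb
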