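import Mathlib

/-!
# S48 / Cheb / Twist : every ideal class contains an integral ideal of norm prime to `m`
-/

set_option autoImplicit false

open NumberField
open scoped nonZeroDivisors

namespace Fermat.Agent.S48.Cheb

variable (K : Type*) [Field K] [NumberField K]

theorem absNorm_coprime_of_sup_eq_top (J : Ideal (𝓞 K)) (m : ℕ)
    (h : J ⊔ Ideal.span {(m : 𝓞 K)} = ⊤) : (Ideal.absNorm J).Coprime m := by
  have h1 : (1 : 𝓞 K) ∈ J ⊔ Ideal.span {(m : 𝓞 K)} := by rw [h]; exact Submodule.mem_top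
  obtain ⟨j, hj, z, hz, hjz⟩ := Submodule.mem_sup.mp h1
  obtain ⟨c, rfl⟩ := Ideal.mem_span_singleton'.mp hz
  have hj' : j = 1 + (-(m : ℤ)) • c := by
    have : j = 1 - c * (m : 𝓞 K) := by rw [← hjz]; ring
    rw [this, zsmul_eq_mul]
    push_cast
    ring
  obtain ⟨r, hr⟩ := Algebra.norm_one_add_smul (A := ℤ) (-(m : ℤ)) c
  rw [← hj'] at hr
  have hdvd : Ideal.absNorm J ∣ (Algebra.norm ℤ j).natAbs := by
    rw [← Ideal.absNorm_span_singleton]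
    exact Ideal.absNorm_dvd_absNorm_of_le ((Ideal.span_singleton_le_iff_mem J).mpr hj)
  have hcop : IsCoprime (Algebra.norm ℤ j) (m : ℤ) :=
    ⟨1, Algebra.trace ℤ (𝓞 K) c - r * m, by rw [hr]; ring⟩
  have hcop' : (Algebra.norm ℤ j).natAbs.Coprime m := by
    have := Int.isCoprime_iff_gcd_eq_one.mp hcop
    simpa [Int.gcd] using this
  exact Nat.Coprime.coprime_dvd_left hdvd hcop'

theorem exists_mk0_eq_coprime (m : ℕ) (hm : m ≠ 0) (C : ClassGroup (𝓞 K)) :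
    ∃ J : (Ideal (𝓞 K))⁰, ClassGroup.mk0 J = C ∧ (Ideal.absNorm (J : Ideal (𝓞 K))).Coprime m := by
  obtain ⟨I0, hI0⟩ := ClassGroup.mk0_surjective C⁻¹
  have hI0ne : (I0 : Ideal (𝓞 K)) ≠ 0 := nonZeroDivisors.coe_ne_zero I0
  have hm' : (m : 𝓞 K) ≠ 0 := Nat.cast_ne_zero.mpr hm
  have hM : Ideal.span {(m : 𝓞 K)} ≠ 0 := by
    rw [Ideal.zero_eq_bot, Ne, Ideal.span_singleton_eq_bot]
    exact hm'
  obtain ⟨a, ha0, ha⟩ : ∃ a : 𝓞 K, a ≠ 0 ∧
      (I0 : Ideal (𝓞 K)) * Ideal.span {(m : 𝓞 K)} ⊔ Ideal.span {a} = I0 := by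
    obtain ⟨a, ha⟩ := IsDedekindDomain.exists_sup_span_eq
      (I := (I0 : Ideal (𝓞 K)) * Ideal.span {(m : 𝓞 K)}) (J := I0) Ideal.mul_le_left
      (mul_ne_zero hI0ne hM)
    by_cases ha0 : a = 0
    · obtain ⟨b, hb, hb0⟩ := Submodule.exists_mem_ne_zero_of_ne_bot
        (p := (I0 : Ideal (𝓞 K))) hI0ne
      refine ⟨b, hb0, ?_⟩
      rw [ha0, Ideal.span_singleton_zero, sup_bot_eq] at ha
      rw [ha, sup_eq_left, Ideal.span_singleton_le_iff_mem]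
      exact hb
    · exact ⟨a, ha0, ha⟩
  have haI : a ∈ (I0 : Ideal (𝓞 K)) := by
    rw [← Ideal.span_singleton_le_iff_mem, ← ha]
    exact le_sup_right
  obtain ⟨J, hJ⟩ := Ideal.dvd_iff_le.mpr ((Ideal.span_singleton_le_iff_mem _).mpr haI)
  have hJ0 : J ≠ 0 := by
    rintro rfl
    rw [mul_zero, Ideal.zero_eq_bot, Ideal.span_singleton_eq_bot] at hJ
    exact ha0 hJ
  have htop : J ⊔ Ideal.span {(m : 𝓞 K)} = ⊤ := by
    apply mul_left_cancel₀ hI0ne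
    rw [Ideal.mul_sup, ← hJ, Ideal.mul_top, sup_comm]
    exact ha
  refine ⟨⟨J, mem_nonZeroDivisors_iff_ne_zero.mpr hJ0⟩, ?_, absNorm_coprime_of_sup_eq_top K J m htop⟩
  suffices ClassGroup.mk0 (⟨J, mem_nonZeroDivisors_iff_ne_zero.mpr hJ0⟩ : (Ideal (𝓞 K))⁰) =
      (ClassGroup.mk0 I0)⁻¹ by rw [this, hI0, inv_inv]
  exact ClassGroup.mk0_eq_mk0_inv_iff.mpr ⟨a, ha0, by rw [mul_comm, hJ]⟩

end Fermat.Agent.S48.Cheb
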