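import Mathlib
import Fermat.Agent.S48.Cheb.Defs

/-!
# S48 / Cheb / Twist : decomposition of `J` into cosets of `J * 𝔟`, with representatives in `m 𝓞 K`
-/

set_option autoImplicit false

open NumberField

namespace Fermat.Agent.S48.Cheb

variable (K : Type*) [Field K] [NumberField K]

/-- `𝔟 + (m) = 𝓞 K` when `N𝔟` is prime to `m`. -/
theorem Coset_sup_eq_top (𝔟 : Ideal (𝓞 K)) (m : ℕ) (hcop : (Ideal.absNorm 𝔟).Coprime m) :
    𝔟 ⊔ Ideal.span {(m : 𝓞 K)} = ⊤ := by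
  rw [Ideal.eq_top_iff_one]
  have h := Nat.isCoprime_iff_coprime.mpr hcop
  obtain ⟨u, v, huv⟩ := h
  have h1 : (1 : 𝓞 K) = (u : 𝓞 K) * ((Ideal.absNorm 𝔟 : ℕ) : 𝓞 K) + (v : 𝓞 K) * (m : 𝓞 K) := by
    have := congrArg (fun x : ℤ => (x : 𝓞 K)) huv
    push_cast at this
    exact this.symm
  rw [h1]
  refine Submodule.add_mem_sup ?_ ?_
  · exact Ideal.mul_mem_left _ _ (Ideal.absNorm_mem 𝔟)
  · exact Ideal.mul_mem_left _ _ (Ideal.mem_span_singleton_self _)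

/-- every element of `J` is congruent modulo `J * 𝔟` to an element `m * c` of `J`. -/
theorem Coset_exists_rep (J 𝔟 : Ideal (𝓞 K)) (m : ℕ) (hcop : (Ideal.absNorm 𝔟).Coprime m)
    (a : 𝓞 K) (ha : a ∈ J) : ∃ c : 𝓞 K, (m : 𝓞 K) * c ∈ J ∧ a - (m : 𝓞 K) * c ∈ J * 𝔟 := by
  have h := Coset_sup_eq_top K 𝔟 m hcop
  have h1 : (1 : 𝓞 K) ∈ 𝔟 ⊔ Ideal.span {(m : 𝓞 K)} := by rw [h]; trivial
  obtain ⟨x, hx, y, hy, hxy⟩ := Submodule.mem_sup.mp h1
  obtain ⟨c, rfl⟩ := Ideal.mem_span_singleton'.mp hy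
  refine ⟨c * a, ?_, ?_⟩
  · rw [← mul_assoc]
    exact Ideal.mul_mem_left _ _ ha
  · have : a - (m : 𝓞 K) * (c * a) = a * x := by
      have h2 : x = 1 - c * (m : 𝓞 K) := by rw [← hxy]; ring
      rw [h2]; ring
    rw [this]
    exact Ideal.mul_mem_mul ha hx

theorem Coset_relIndex (J 𝔟 : Ideal (𝓞 K)) (hJ : J ≠ ⊥) :
    (J * 𝔟).toAddSubgroup.relIndex J.toAddSubgroup = Ideal.absNorm 𝔟 := by
  have hle : (J * 𝔟).toAddSubgroup ≤ J.toAddSubgroup := fun x hx => Ideal.mul_le_left hx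
  have h := AddSubgroup.relIndex_mul_index hle
  rw [← Ideal.absNorm_eq_index, ← Ideal.absNorm_eq_index, map_mul, mul_comm] at h
  have hJ0 : Ideal.absNorm J ≠ 0 := by rwa [Ne, Ideal.absNorm_eq_zero_iff]
  exact Nat.eq_of_mul_eq_mul_left (Nat.pos_of_ne_zero hJ0) h

/-- abstract coset decomposition with prescribed representatives -/
theorem Coset_abstract {G : Type*} [AddCommGroup G] (A B : AddSubgroup G) (hBA : B ≤ A) (n : ℕ)
    (hn : n ≠ 0) (hcard : B.relIndex A = n) (P : G → Prop)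
    (hP : ∀ a ∈ A, ∃ r ∈ A, P r ∧ a - r ∈ B) :
    ∃ t : Fin n → G, (∀ i, P (t i)) ∧
      ∀ f : G → ℂ, Summable f →
        ∑' a : A, f (a : G) = ∑ i, ∑' b : B, f ((b : G) + t i) := by
  classical
  set H : AddSubgroup A := B.addSubgroupOf A with hH
  have hcard' : Nat.card (A ⧸ H) = n := hcard
  have hfin : Finite (A ⧸ H) := Nat.finite_of_card_ne_zero (by rw [hcard']; exact hn)
  have : Fintype (A ⧸ H) := Fintype.ofFinite _
  let e : (A ⧸ H) ≃ Fin n := Finite.equivFinOfCardEq hcard'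
  have hmk : ∀ x y : A, (QuotientAddGroup.mk x : A ⧸ H) = QuotientAddGroup.mk y ↔
      (y : G) - (x : G) ∈ B := by
    intro x y
    rw [QuotientAddGroup.eq, hH, AddSubgroup.mem_addSubgroupOf]
    have : ((-x + y : A) : G) = (y : G) - (x : G) := by
      push_cast
      abel
    rw [this]
  have hrep : ∀ q : A ⧸ H, ∃ r : A, P (r : G) ∧ (QuotientAddGroup.mk r : A ⧸ H) = q := by
    intro q
    obtain ⟨a, rfl⟩ := QuotientAddGroup.mk_surjective q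
    obtain ⟨r, hr, hPr, har⟩ := hP a.1 a.2
    exact ⟨⟨r, hr⟩, hPr, (hmk _ _).mpr har⟩
  choose r hPr hr using hrep
  refine ⟨fun i => (r (e.symm i) : G), fun i => hPr _, ?_⟩
  intro f hf
  have hmem : ∀ a : A, (a : G) - (r (QuotientAddGroup.mk a : A ⧸ H) : G) ∈ B := fun a =>
    (hmk _ _).mp (hr _)
  have hq' : ∀ (q : A ⧸ H) (b : B), (QuotientAddGroup.mk (⟨(b : G) + (r q : G),
      A.add_mem (hBA b.2) (r q).2⟩ : A) : A ⧸ H) = q := by
    intro q b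
    conv_rhs => rw [← hr q]
    rw [hmk]
    have : ((r q : A) : G) - ((b : G) + (r q : G)) = -(b : G) := by abel
    rw [this]
    exact B.neg_mem b.2
  obtain ⟨E, hE⟩ : ∃ E : ((A ⧸ H) × B) ≃ A, ∀ (q : A ⧸ H) (b : B),
      ((E (q, b) : A) : G) = (b : G) + (r q : G) := ⟨
    { toFun := fun x => ⟨(x.2 : G) + (r x.1 : G), A.add_mem (hBA x.2.2) (r x.1).2⟩
      invFun := fun a => ((QuotientAddGroup.mk a : A ⧸ H),
        ⟨(a : G) - (r (QuotientAddGroup.mk a : A ⧸ H) : G), hmem a⟩)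
      left_inv := by
        rintro ⟨q, b⟩
        refine Prod.ext (hq' q b) (Subtype.ext ?_)
        show (b : G) + (r q : G) - (r (QuotientAddGroup.mk (⟨(b : G) + (r q : G),
          A.add_mem (hBA b.2) (r q).2⟩ : A) : A ⧸ H) : G) = b
        rw [hq' q b, add_sub_cancel_right]
      right_inv := by
        intro a
        refine Subtype.ext ?_
        show (a : G) - (r (QuotientAddGroup.mk a : A ⧸ H) : G) + (r (QuotientAddGroup.mk a : A ⧸ H) : G) = a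
        rw [sub_add_cancel] }, fun _ _ => rfl⟩
  have hfA : Summable fun a : A => f (a : G) := hf.comp_injective Subtype.val_injective
  have hs : Summable ((fun a : A => f (a : G)) ∘ E) := hfA.comp_injective E.injective
  calc ∑' a : A, f (a : G) = ∑' x, ((fun a : A => f (a : G)) ∘ E) x :=
        (E.tsum_eq (fun a : A => f (a : G))).symm
    _ = ∑' q : A ⧸ H, ∑' b : B, ((fun a : A => f (a : G)) ∘ E) (q, b) := hs.tsum_prod
    _ = ∑ q : A ⧸ H, ∑' b : B, ((fun a : A => f (a : G)) ∘ E) (q, b) := tsum_fintype _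
    _ = ∑ q : A ⧸ H, ∑' b : B, f ((b : G) + (r q : G)) := by
        refine Finset.sum_congr rfl fun q _ => tsum_congr fun b => ?_
        rw [Function.comp_apply, hE]
    _ = ∑ i, ∑' b : B, f ((b : G) + (r (e.symm i) : G)) :=
        (e.symm.sum_comp (fun q => ∑' b : B, f ((b : G) + (r q : G)))).symm

theorem tsum_eq_sum_cosets_mul (J 𝔟 : Ideal (𝓞 K)) (hJ : J ≠ ⊥) (h𝔟 : 𝔟 ≠ ⊥) (m : ℕ)
    (hcop : (Ideal.absNorm 𝔟).Coprime m) :
    ∃ t : Fin (Ideal.absNorm 𝔟) → 𝓞 K, (∀ i, ∃ c : 𝓞 K, t i = (m : 𝓞 K) * c) ∧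
      ∀ f : 𝓞 K → ℂ, Summable f →
        ∑' a : J, f (a : 𝓞 K) = ∑ i, ∑' b : (J * 𝔟 : Ideal (𝓞 K)), f ((b : 𝓞 K) + t i) := by
  have h𝔟0 : Ideal.absNorm 𝔟 ≠ 0 := by rwa [Ne, Ideal.absNorm_eq_zero_iff]
  have hle : (J * 𝔟).toAddSubgroup ≤ J.toAddSubgroup := fun x hx => Ideal.mul_le_left hx
  exact Coset_abstract J.toAddSubgroup (J * 𝔟).toAddSubgroup hle (Ideal.absNorm 𝔟) h𝔟0
    (Coset_relIndex K J 𝔟 hJ) (fun t => ∃ c : 𝓞 K, t = (m : 𝓞 K) * c) (fun a ha => by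
      obtain ⟨c, hc, hac⟩ := Coset_exists_rep K J 𝔟 m hcop a ha
      exact ⟨(m : 𝓞 K) * c, hc, ⟨c, rfl⟩, hac⟩)

end Fermat.Agent.S48.Cheb
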