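import Mathlib
import Fermat.Agent.S14.CZ.Shift
import Fermat.Agent.S48.Cheb.Twist.Theta
import Fermat.Agent.S48.Cheb.Twist.Coset

/-!
# S48 / Cheb / Twist : `X_J(s) - N𝔟 · X_{J𝔟}(s) = O(1)` on `(1,2]`
-/

set_option autoImplicit false

open NumberField

namespace Fermat.Agent.S48.Cheb

open Fermat.Agent.S14.CZ

variable (K : Type*) [Field K] [NumberField K] {m : ℕ} (χ : DirichletCharacter ℂ m)

theorem exists_norm_XJ_sub_le (J 𝔟 : Ideal (𝓞 K)) (hJ : J ≠ ⊥) (h𝔟 : 𝔟 ≠ ⊥)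
    (hcop : (Ideal.absNorm 𝔟).Coprime m) :
    ∃ B : ℝ, ∀ s : ℝ, 1 < s → s ≤ 2 →
      ‖XJ K χ J s - (Ideal.absNorm 𝔟 : ℂ) * XJ K χ (J * 𝔟) s‖ ≤ B := by
  classical
  obtain ⟨t, ht, hdec⟩ := tsum_eq_sum_cosets_mul K J 𝔟 hJ h𝔟 m hcop
  choose β hβs hβ using fun i => shift_one K (t i)
  refine ⟨∑ i, ∑' b : (J * 𝔟 : Ideal (𝓞 K)), β i b, ?_⟩
  intro s hs hs2
  have hg := summable_gK K hs hs2
  set f : 𝓞 K → ℂ := fun a => ((gK K s a : ℝ) : ℂ) * theta K χ a with hf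
  have hfn : ∀ a, ‖f a‖ ≤ gK K s a := by
    intro a
    simp only [hf]
    rw [norm_mul, Complex.norm_real, Real.norm_of_nonneg (gK_nonneg K s a)]
    exact mul_le_of_le_one_right (gK_nonneg K s a) (norm_theta_le_one K χ a)
  have hfs : Summable f := Summable.of_norm_bounded hg hfn
  have hfJ : Summable fun b : (J * 𝔟 : Ideal (𝓞 K)) => f b :=
    hfs.comp_injective Subtype.val_injective
  have hft : ∀ i, Summable fun b : (J * 𝔟 : Ideal (𝓞 K)) => f ((b : 𝓞 K) + t i) := fun i =>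
    hfs.comp_injective (i := fun b : (J * 𝔟 : Ideal (𝓞 K)) => (b : 𝓞 K) + t i)
      (fun b b' h => Subtype.ext (add_right_cancel h))
  have h1 : (Ideal.absNorm 𝔟 : ℂ) * XJ K χ (J * 𝔟) s =
      ∑ _i : Fin (Ideal.absNorm 𝔟), ∑' b : (J * 𝔟 : Ideal (𝓞 K)), f b := by
    rw [Finset.sum_const, Finset.card_univ, Fintype.card_fin, nsmul_eq_mul]
    rfl
  have h2 : XJ K χ J s = ∑ i, ∑' b : (J * 𝔟 : Ideal (𝓞 K)), f ((b : 𝓞 K) + t i) := hdec f hfs
  rw [h2, h1, ← Finset.sum_sub_distrib]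
  refine (norm_sum_le _ _).trans (Finset.sum_le_sum fun i _ => ?_)
  rw [← (hft i).tsum_sub hfJ]
  refine tsum_of_norm_bounded ((hβs i).comp_injective Subtype.val_injective).hasSum fun b => ?_
  obtain ⟨c, hc⟩ := ht i
  have hθ : theta K χ ((b : 𝓞 K) + t i) = theta K χ b := by
    rw [hc]
    exact theta_add_mul K χ _ c
  have hdiff : f ((b : 𝓞 K) + t i) - f b =
      (((gK K s ((b : 𝓞 K) + t i) - gK K s b : ℝ)) : ℂ) * theta K χ b := by
    simp only [hf, hθ]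
    push_cast
    ring
  rw [hdiff, norm_mul, Complex.norm_real, Real.norm_eq_abs]
  exact (mul_le_of_le_one_right (abs_nonneg _) (norm_theta_le_one K χ _)).trans
    (hβ i s hs hs2 b)

end Fermat.Agent.S48.Cheb
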