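import Mathlib
import Fermat.Agent.S48.Cheb.Twist.Theta

/-!
# S48 / Cheb / Twist : twisted unfolding (copy of `S14.CZ.unfold_classZeta` with the weight `χ(N ·)`)
-/

set_option autoImplicit false

open NumberField NumberField.InfinitePlace NumberField.Units
open scoped nonZeroDivisors

namespace Fermat.Agent.S48.Cheb

open Fermat.Agent.S14.CZ

variable (K : Type*) [Field K] [NumberField K] {m : ℕ} (χ : DirichletCharacter ℂ m)

theorem unfold_XJ (hχ : χ.Even) (J : (Ideal (𝓞 K))⁰) (C : ClassGroup (𝓞 K))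
    (hJ : ClassGroup.mk0 J = C⁻¹) {s : ℝ} (hs : 1 < s) (hs2 : s ≤ 2) :
    XJ K χ (J : Ideal (𝓞 K)) s =
      (torsionOrder K : ℂ) * (((Ideal.absNorm (J : Ideal (𝓞 K)) : ℝ) ^ (-s) : ℝ) : ℂ) *
        chiN K χ (J : Ideal (𝓞 K)) * LC K χ C s := by
  classical
  -- generators
  have hprin : ∀ I : {I : (Ideal (𝓞 K))⁰ // ClassGroup.mk0 I = C},
      ∃ a : 𝓞 K, Ideal.span {a} = (J : Ideal (𝓞 K)) * (I.1 : Ideal (𝓞 K)) := by
    intro I
    have h1 : ClassGroup.mk0 (J * I.1) = 1 := by rw [map_mul, hJ, I.2, inv_mul_cancel]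
    have h2 := (ClassGroup.mk0_eq_one_iff (J * I.1).2).mp h1
    obtain ⟨a, ha⟩ := h2.principal
    exact ⟨a, by rw [← Ideal.submodule_span_eq, ← ha]; rfl⟩
  choose gen hgen using hprin
  have hJ0 : (J : Ideal (𝓞 K)) ≠ ⊥ := nonZeroDivisors.coe_ne_zero J
  have hgen0 : ∀ I, gen I ≠ 0 := by
    intro I h0
    have := hgen I
    rw [h0] at this
    have h3 : (J : Ideal (𝓞 K)) * (I.1 : Ideal (𝓞 K)) = ⊥ := by rw [← this]; simp
    rcases mul_eq_zero.mp h3 with h | h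
    · exact hJ0 h
    · exact nonZeroDivisors.coe_ne_zero I.1 h
  have hgenJ : ∀ (I) (u : (𝓞 K)ˣ), (u : 𝓞 K) * gen I ∈ (J : Ideal (𝓞 K)) := by
    intro I u
    apply Ideal.mul_mem_left
    have : gen I ∈ Ideal.span {gen I} := Ideal.mem_span_singleton_self _
    rw [hgen I] at this
    exact Ideal.mul_le_left this
  let Ψ : {I : (Ideal (𝓞 K))⁰ // ClassGroup.mk0 I = C} × (𝓞 K)ˣ → (J : Ideal (𝓞 K)) :=
    fun x => ⟨(x.2 : 𝓞 K) * gen x.1, hgenJ x.1 x.2⟩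
  have hspan : ∀ (I) (u : (𝓞 K)ˣ), Ideal.span {(u : 𝓞 K) * gen I} =
      (J : Ideal (𝓞 K)) * (I.1 : Ideal (𝓞 K)) := by
    intro I u
    rw [← hgen I, Ideal.span_singleton_mul_left_unit u.isUnit]
  have hΨinj : Function.Injective Ψ := by
    rintro ⟨I, u⟩ ⟨I', u'⟩ h
    have h1 : (u : 𝓞 K) * gen I = (u' : 𝓞 K) * gen I' := congrArg Subtype.val h
    have h2 : (J : Ideal (𝓞 K)) * (I.1 : Ideal (𝓞 K)) = (J : Ideal (𝓞 K)) * (I'.1 : Ideal (𝓞 K)) := by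
      rw [← hspan I u, ← hspan I' u', h1]
    have h3 : (I.1 : Ideal (𝓞 K)) = (I'.1 : Ideal (𝓞 K)) := mul_left_cancel₀ hJ0 h2
    have h4 : I = I' := Subtype.ext (Subtype.ext h3)
    subst h4
    have h5 : (u : 𝓞 K) = u' := mul_right_cancel₀ (hgen0 I) h1
    rw [Units.ext h5]
  have hΨrange : ∀ b : (J : Ideal (𝓞 K)), b ∉ Set.range Ψ → gK K s b = 0 := by
    intro b hb
    by_cases hb0 : (b : 𝓞 K) = 0
    · rw [hb0]; exact gK_zero K (by linarith)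
    exfalso
    apply hb
    -- `span {b} = J * I`
    have h1 : (J : Ideal (𝓞 K)) ∣ Ideal.span {(b : 𝓞 K)} := by
      rw [Ideal.dvd_span_singleton]; exact b.2
    obtain ⟨I, hI⟩ := h1
    have hI0 : I ≠ ⊥ := by
      rintro rfl
      rw [Ideal.mul_bot, Ideal.span_singleton_eq_bot] at hI
      exact hb0 hI
    let I' : (Ideal (𝓞 K))⁰ := ⟨I, mem_nonZeroDivisors_of_ne_zero hI0⟩
    have hb' : Ideal.span {(b : 𝓞 K)} ∈ (Ideal (𝓞 K))⁰ :=
      mem_nonZeroDivisors_of_ne_zero (by rwa [Ne, Ideal.zero_eq_bot, Ideal.span_singleton_eq_bot])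
    have h2 : ClassGroup.mk0 (J * I') = 1 := by
      rw [ClassGroup.mk0_eq_one_iff (J * I').2]
      refine ⟨⟨(b : 𝓞 K), ?_⟩⟩
      change (J : Ideal (𝓞 K)) * I = _
      rw [← hI]
    have h3 : ClassGroup.mk0 I' = C := by
      rw [map_mul, hJ] at h2
      exact (inv_mul_eq_one.mp h2).symm
    have h4 : Ideal.span {(b : 𝓞 K)} = Ideal.span {gen ⟨I', h3⟩} := by
      rw [hgen, hI]
    rw [Ideal.span_singleton_eq_span_singleton] at h4
    obtain ⟨u, hu⟩ := h4.symm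
    exact ⟨(⟨I', h3⟩, u), Subtype.ext (by simp only [Ψ]; rw [mul_comm]; exact hu)⟩
  have hsumJ : Summable fun b : (J : Ideal (𝓞 K)) => gK K s b :=
    (summable_gK K hs hs2).comp_injective Subtype.val_injective
  have hsumΨ : Summable fun x => gK K s (Ψ x) := (hΨinj.summable_iff hΨrange).mpr hsumJ
  have hval : ∀ (I : {I : (Ideal (𝓞 K))⁰ // ClassGroup.mk0 I = C}) (u : (𝓞 K)ˣ),
      gK K s (Ψ (I, u)) = ((Ideal.absNorm (J : Ideal (𝓞 K)) : ℝ) ^ (-s) *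
        (Ideal.absNorm (I.1 : Ideal (𝓞 K)) : ℝ) ^ (-s)) *
        HK K (fun w => Real.log (w (((u : 𝓞 K) : K) * (gen I : K)))) := by
    intro I u
    rw [gK_eq]
    simp only [Ψ]
    rw [hspan, map_mul, Nat.cast_mul, Real.mul_rpow (Nat.cast_nonneg _) (Nat.cast_nonneg _)]
    simp
  have hfib : ∀ I : {I : (Ideal (𝓞 K))⁰ // ClassGroup.mk0 I = C},
      HasSum (fun u : (𝓞 K)ˣ => gK K s (Ψ (I, u)))
        (((Ideal.absNorm (J : Ideal (𝓞 K)) : ℝ) ^ (-s) *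
        (Ideal.absNorm (I.1 : Ideal (𝓞 K)) : ℝ) ^ (-s)) * (torsionOrder K : ℝ)) := by
    intro I
    simp only [hval]
    exact (hasSum_units_HK K (gen I : K) (by simpa using hgen0 I)).mul_left _
  -- the twisted family
  have hΨrange' : ∀ b : (J : Ideal (𝓞 K)), b ∉ Set.range Ψ →
      ((gK K s (b : 𝓞 K) : ℝ) : ℂ) * theta K χ (b : 𝓞 K) = 0 := by
    intro b hb
    rw [hΨrange b hb, Complex.ofReal_zero, zero_mul]
  have hsumJ' : Summable fun b : (J : Ideal (𝓞 K)) =>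
      ((gK K s (b : 𝓞 K) : ℝ) : ℂ) * theta K χ (b : 𝓞 K) := by
    refine Summable.of_norm_bounded hsumJ fun b => ?_
    rw [norm_mul, Complex.norm_real, Real.norm_of_nonneg (gK_nonneg K s _)]
    exact mul_le_of_le_one_right (gK_nonneg K s _) (norm_theta_le_one K χ _)
  have hsumΨ' : Summable fun x =>
      ((gK K s (Ψ x : 𝓞 K) : ℝ) : ℂ) * theta K χ (Ψ x : 𝓞 K) :=
    (hΨinj.summable_iff hΨrange').mpr hsumJ'
  have htheta : ∀ (I : {I : (Ideal (𝓞 K))⁰ // ClassGroup.mk0 I = C}) (u : (𝓞 K)ˣ),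
      theta K χ (Ψ (I, u) : 𝓞 K) =
        chiN K χ (J : Ideal (𝓞 K)) * chiN K χ (I.1 : Ideal (𝓞 K)) := by
    intro I u
    rw [theta_eq_chiN K χ hχ]
    simp only [Ψ]
    rw [hspan, chiN_mul]
  have hfib' : ∀ I : {I : (Ideal (𝓞 K))⁰ // ClassGroup.mk0 I = C},
      HasSum (fun u : (𝓞 K)ˣ =>
        ((gK K s (Ψ (I, u) : 𝓞 K) : ℝ) : ℂ) * theta K χ (Ψ (I, u) : 𝓞 K))
        (((((Ideal.absNorm (J : Ideal (𝓞 K)) : ℝ) ^ (-s) *
        (Ideal.absNorm (I.1 : Ideal (𝓞 K)) : ℝ) ^ (-s)) * (torsionOrder K : ℝ) : ℝ) : ℂ) *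
          (chiN K χ (J : Ideal (𝓞 K)) * chiN K χ (I.1 : Ideal (𝓞 K)))) := by
    intro I
    simp only [htheta]
    exact (Complex.hasSum_ofReal.mpr (hfib I)).mul_right _
  unfold XJ
  rw [← hΨinj.tsum_eq (f := fun b : (J : Ideal (𝓞 K)) =>
      ((gK K s (b : 𝓞 K) : ℝ) : ℂ) * theta K χ (b : 𝓞 K))
    (by intro b hb; by_contra hc; exact hb (hΨrange' b hc))]
  rw [hsumΨ'.tsum_prod]
  simp only [fun I => (hfib' I).tsum_eq]
  rw [LC, ← tsum_mul_left]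
  refine tsum_congr fun I => ?_
  rw [LTerm]
  push_cast
  ring

end Fermat.Agent.S48.Cheb
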