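import Mathlib
import Fermat.Agent.S48.Cheb.Twist.Unfold
import Fermat.Agent.S48.Cheb.Twist.Shift
import Fermat.Agent.S48.Cheb.Twist.Coprime

/-!
# S48 / Cheb / Twist : the `𝔟`-trick for one ideal class
-/

set_option autoImplicit false

open NumberField
open scoped nonZeroDivisors

namespace Fermat.Agent.S48.Cheb

variable (K : Type*) [Field K] [NumberField K] {m : ℕ} (χ : DirichletCharacter ℂ m)

/-- one class: `L_C(s) - χ(N𝔟) N𝔟^{1-s} L_{C [𝔟]⁻¹}(s) = O(1)` -/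
theorem exists_norm_LC_sub_le (hm : m ≠ 0) (hχ : χ.Even) (𝔟 : (Ideal (𝓞 K))⁰)
    (hcop : (Ideal.absNorm (𝔟 : Ideal (𝓞 K))).Coprime m) (C : ClassGroup (𝓞 K)) :
    ∃ B : ℝ, ∀ s : ℝ, 1 < s → s ≤ 2 →
      ‖LC K χ C s - chiN K χ (𝔟 : Ideal (𝓞 K)) *
        (((Ideal.absNorm (𝔟 : Ideal (𝓞 K)) : ℝ) ^ (1 - s) : ℝ) : ℂ) *
          LC K χ (C * (ClassGroup.mk0 𝔟)⁻¹) s‖ ≤ B := by
  obtain ⟨J, hJ, hJcop⟩ := exists_mk0_eq_coprime K m hm C⁻¹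
  have hJ0 : (J : Ideal (𝓞 K)) ≠ ⊥ := nonZeroDivisors.coe_ne_zero J
  have h𝔟0 : (𝔟 : Ideal (𝓞 K)) ≠ ⊥ := nonZeroDivisors.coe_ne_zero 𝔟
  obtain ⟨B, hB⟩ := exists_norm_XJ_sub_le K χ (J : Ideal (𝓞 K)) (𝔟 : Ideal (𝓞 K)) hJ0 h𝔟0 hcop
  have hNJ1 : (1 : ℝ) ≤ (Ideal.absNorm (J : Ideal (𝓞 K)) : ℝ) := by
    have : Ideal.absNorm (J : Ideal (𝓞 K)) ≠ 0 := Ideal.absNorm_ne_zero_iff_mem_nonZeroDivisors.2 J.2
    exact_mod_cast Nat.one_le_iff_ne_zero.2 this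
  have hNb0 : (0 : ℝ) < (Ideal.absNorm (𝔟 : Ideal (𝓞 K)) : ℝ) := by
    have : Ideal.absNorm (𝔟 : Ideal (𝓞 K)) ≠ 0 := Ideal.absNorm_ne_zero_iff_mem_nonZeroDivisors.2 𝔟.2
    exact_mod_cast Nat.pos_of_ne_zero this
  have hNJ0 : (0 : ℝ) < (Ideal.absNorm (J : Ideal (𝓞 K)) : ℝ) := lt_of_lt_of_le one_pos hNJ1
  have hw1 : (1 : ℝ) ≤ (NumberField.Units.torsionOrder K : ℝ) := by
    exact_mod_cast Nat.one_le_iff_ne_zero.2 (NeZero.ne _)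
  refine ⟨B / (Ideal.absNorm (J : Ideal (𝓞 K)) : ℝ) ^ (-2 : ℝ), fun s hs hs2 => ?_⟩
  have u1 := unfold_XJ K χ hχ J C (by rw [hJ]) hs hs2
  have u2 := unfold_XJ K χ hχ (J * 𝔟) (C * (ClassGroup.mk0 𝔟)⁻¹)
    (by rw [map_mul, hJ, mul_inv, inv_inv]) hs hs2
  rw [Submonoid.coe_mul, map_mul, chiN_mul, Nat.cast_mul,
    Real.mul_rpow hNJ0.le hNb0.le] at u2
  have e1 : (Ideal.absNorm (𝔟 : Ideal (𝓞 K)) : ℝ) ^ (1 - s) =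
      (Ideal.absNorm (𝔟 : Ideal (𝓞 K)) : ℝ) * (Ideal.absNorm (𝔟 : Ideal (𝓞 K)) : ℝ) ^ (-s) := by
    rw [sub_eq_add_neg, Real.rpow_add hNb0, Real.rpow_one]
  have key : XJ K χ (J : Ideal (𝓞 K)) s -
      (Ideal.absNorm (𝔟 : Ideal (𝓞 K)) : ℂ) * XJ K χ ((J : Ideal (𝓞 K)) * (𝔟 : Ideal (𝓞 K))) s =
      ((NumberField.Units.torsionOrder K : ℂ) *
        (((Ideal.absNorm (J : Ideal (𝓞 K)) : ℝ) ^ (-s) : ℝ) : ℂ) * chiN K χ (J : Ideal (𝓞 K))) *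
      (LC K χ C s - chiN K χ (𝔟 : Ideal (𝓞 K)) *
        (((Ideal.absNorm (𝔟 : Ideal (𝓞 K)) : ℝ) ^ (1 - s) : ℝ) : ℂ) *
          LC K χ (C * (ClassGroup.mk0 𝔟)⁻¹) s) := by
    rw [u1, u2, e1]
    push_cast
    ring
  have hn := hB s hs hs2
  rw [key, norm_mul, norm_mul, norm_mul, norm_chiN_eq_one K χ _ hJcop, mul_one, Complex.norm_natCast,
    Complex.norm_real, Real.norm_of_nonneg (Real.rpow_nonneg hNJ0.le _)] at hn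
  have hpos : (0 : ℝ) < (Ideal.absNorm (J : Ideal (𝓞 K)) : ℝ) ^ (-2 : ℝ) := Real.rpow_pos_of_pos hNJ0 _
  have hle : (Ideal.absNorm (J : Ideal (𝓞 K)) : ℝ) ^ (-2 : ℝ) ≤
      (NumberField.Units.torsionOrder K : ℝ) * (Ideal.absNorm (J : Ideal (𝓞 K)) : ℝ) ^ (-s) := by
    calc (Ideal.absNorm (J : Ideal (𝓞 K)) : ℝ) ^ (-2 : ℝ)
        ≤ (Ideal.absNorm (J : Ideal (𝓞 K)) : ℝ) ^ (-s) :=
          Real.rpow_le_rpow_of_exponent_le hNJ1 (by linarith)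
      _ ≤ (NumberField.Units.torsionOrder K : ℝ) * (Ideal.absNorm (J : Ideal (𝓞 K)) : ℝ) ^ (-s) :=
          le_mul_of_one_le_left (Real.rpow_nonneg hNJ0.le _) hw1
  rw [le_div_iff₀ hpos, mul_comm]
  exact (mul_le_mul_of_nonneg_right hle (norm_nonneg _)).trans hn

end Fermat.Agent.S48.Cheb
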