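import Mathlib
import Fermat.Agent.S48.Cheb.Twist.ClassStep

/-!
# S48 / Cheb / Twist : (U1) `L_K(s, χ ∘ N)` is bounded on `(1,2]` for `χ` even with `χ(N𝔟) ≠ 1`
-/

set_option autoImplicit false

open NumberField
open scoped nonZeroDivisors

namespace Fermat.Agent.S48.Cheb

variable (K : Type*) [Field K] [NumberField K] {m : ℕ} (χ : DirichletCharacter ℂ m)

theorem LK_eq_sum_LC [Fintype (ClassGroup (𝓞 K))] {s : ℝ} (hs : 1 < s) :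
    LK K χ s = ∑ C : ClassGroup (𝓞 K), LC K χ C s := by
  unfold LK LC
  have hsum := summable_LTerm K χ hs
  have hsum' : Summable (fun x : Σ C, {I : (Ideal (𝓞 K))⁰ // ClassGroup.mk0 I = C} =>
      LTerm K χ s (Equiv.sigmaFiberEquiv (fun I : (Ideal (𝓞 K))⁰ => ClassGroup.mk0 I) x)) :=
    (Equiv.sigmaFiberEquiv (fun I : (Ideal (𝓞 K))⁰ => ClassGroup.mk0 I)).summable_iff.2 hsum
  rw [← (Equiv.sigmaFiberEquiv (fun I : (Ideal (𝓞 K))⁰ => ClassGroup.mk0 I)).tsum_eq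
    (LTerm K χ s), hsum'.tsum_sigma, tsum_fintype]
  rfl

theorem norm_one_sub_le_two_mul (ξ : ℂ) (hξ : ‖ξ‖ = 1) (x : ℝ) (h0 : 0 ≤ x) (h1 : x ≤ 1) :
    ‖1 - ξ‖ ≤ 2 * ‖1 - ξ * (x : ℂ)‖ := by
  have h2 : ‖ξ * (x : ℂ)‖ = x := by
    rw [norm_mul, hξ, one_mul, Complex.norm_real, Real.norm_of_nonneg h0]
  have h3 : 1 - x ≤ ‖1 - ξ * (x : ℂ)‖ := by
    have := norm_sub_norm_le (1 : ℂ) (ξ * (x : ℂ))
    rwa [norm_one, h2] at this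
  have h4 : ‖ξ * (x : ℂ) - ξ‖ = 1 - x := by
    have : ξ * (x : ℂ) - ξ = ξ * (((x - 1 : ℝ)) : ℂ) := by
      push_cast
      ring
    rw [this, norm_mul, hξ, one_mul, Complex.norm_real, Real.norm_eq_abs,
      abs_of_nonpos (by linarith)]
    ring
  have h5 : ‖1 - ξ‖ ≤ ‖1 - ξ * (x : ℂ)‖ + ‖ξ * (x : ℂ) - ξ‖ := by
    have := norm_add_le (1 - ξ * (x : ℂ)) (ξ * (x : ℂ) - ξ)
    rwa [sub_add_sub_cancel] at this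
  linarith

/-- **(U1)** -/
theorem exists_norm_LK_le (hm : m ≠ 0) (hχ : χ.Even) (𝔟 : Ideal (𝓞 K))
    (hcop : (Ideal.absNorm 𝔟).Coprime m) (hξ : chiN K χ 𝔟 ≠ 1) :
    ∃ B : ℝ, ∀ s : ℝ, 1 < s → s ≤ 2 → ‖LK K χ s‖ ≤ B := by
  classical
  have hb : 𝔟 ≠ ⊥ := by
    rintro rfl
    rw [Ideal.absNorm_bot, Nat.coprime_zero_left] at hcop
    subst hcop
    apply hξ
    unfold chiN
    rw [Subsingleton.elim (((Ideal.absNorm (⊥ : Ideal (𝓞 K)) : ℕ)) : ZMod 1) 1, map_one]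
  have hb' : 𝔟 ∈ (Ideal (𝓞 K))⁰ := mem_nonZeroDivisors_iff_ne_zero.2 hb
  choose B hB using fun C => exists_norm_LC_sub_le K χ hm hχ ⟨𝔟, hb'⟩ hcop C
  have hξ1 : ‖chiN K χ 𝔟‖ = 1 := norm_chiN_eq_one K χ 𝔟 hcop
  have hpos : 0 < ‖1 - chiN K χ 𝔟‖ := norm_pos_iff.2 (sub_ne_zero.2 (Ne.symm hξ))
  refine ⟨2 * (∑ C, B C) / ‖1 - chiN K χ 𝔟‖, fun s hs hs2 => ?_⟩
  have hN : (1 : ℝ) ≤ (Ideal.absNorm 𝔟 : ℝ) := by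
    have := Ideal.absNorm_ne_zero_iff_mem_nonZeroDivisors.mpr hb'
    exact_mod_cast Nat.one_le_iff_ne_zero.mpr this
  have hx0 : 0 ≤ (Ideal.absNorm 𝔟 : ℝ) ^ (1 - s) := Real.rpow_nonneg (by linarith) _
  have hx1 : (Ideal.absNorm 𝔟 : ℝ) ^ (1 - s) ≤ 1 :=
    Real.rpow_le_one_of_one_le_of_nonpos hN (by linarith)
  have hkey : (1 - chiN K χ 𝔟 * (((Ideal.absNorm 𝔟 : ℝ) ^ (1 - s) : ℝ) : ℂ)) * LK K χ s =
      ∑ C, (LC K χ C s - chiN K χ 𝔟 * (((Ideal.absNorm 𝔟 : ℝ) ^ (1 - s) : ℝ) : ℂ) *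
        LC K χ (C * (ClassGroup.mk0 ⟨𝔟, hb'⟩)⁻¹) s) := by
    have hre : ∑ C, LC K χ (C * (ClassGroup.mk0 ⟨𝔟, hb'⟩)⁻¹) s = ∑ C, LC K χ C s :=
      Equiv.sum_comp (Equiv.mulRight (ClassGroup.mk0 ⟨𝔟, hb'⟩)⁻¹) (fun C => LC K χ C s)
    rw [Finset.sum_sub_distrib, ← Finset.mul_sum, hre, ← LK_eq_sum_LC K χ hs]
    ring
  have h1 : ‖(1 - chiN K χ 𝔟 * (((Ideal.absNorm 𝔟 : ℝ) ^ (1 - s) : ℝ) : ℂ)) * LK K χ s‖ ≤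
      ∑ C, B C := by
    rw [hkey]
    exact (norm_sum_le _ _).trans (Finset.sum_le_sum fun C _ => hB C s hs hs2)
  have h2 := norm_one_sub_le_two_mul (chiN K χ 𝔟) hξ1 _ hx0 hx1
  rw [norm_mul] at h1
  rw [le_div_iff₀ hpos]
  calc ‖LK K χ s‖ * ‖1 - chiN K χ 𝔟‖
      ≤ ‖LK K χ s‖ * (2 * ‖1 - chiN K χ 𝔟 * (((Ideal.absNorm 𝔟 : ℝ) ^ (1 - s) : ℝ) : ℂ)‖) :=
        mul_le_mul_of_nonneg_left h2 (norm_nonneg _)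
    _ = 2 * (‖1 - chiN K χ 𝔟 * (((Ideal.absNorm 𝔟 : ℝ) ^ (1 - s) : ℝ) : ℂ)‖ * ‖LK K χ s‖) := by
        ring
    _ ≤ 2 * ∑ C, B C := by linarith

end Fermat.Agent.S48.Cheb
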